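import Mathlib

set_option autoImplicit false

open UpperHalfPlane hiding I
open Filter Topology Complex Function Polynomial
open scoped Manifold ModularForm MatrixGroups

namespace Fermat.Agent.S22P

/-- Evaluation of complex polynomials as functions on `ℍ`. -/
noncomputable def evalC : ℂ[X] →ₗ[ℂ] (ℍ → ℂ) where
  toFun P := fun y => P.eval (y : ℂ)
  map_add' P Q := by funext y; simp
  map_smul' c P := by funext y; simp

/-- Evaluation of integer polynomials as functions on `ℍ`. -/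
noncomputable def evalZ : ℤ[X] →ₗ[ℤ] (ℍ → ℂ) where
  toFun P := fun y => aeval (y : ℂ) P
  map_add' P Q := by funext y; simp
  map_smul' c P := by funext y; simp

@[simp] theorem evalC_apply (P : ℂ[X]) (y : ℍ) : evalC P y = P.eval (y : ℂ) := rfl

@[simp] theorem evalZ_apply (P : ℤ[X]) (y : ℍ) : evalZ P y = aeval (y : ℂ) P := rfl

/-- Polynomial functions of degree `≤ n` on `ℍ`. -/
noncomputable def polyC (n : ℕ) : Submodule ℂ (ℍ → ℂ) := (degreeLE ℂ n).map evalC

/-- Polynomial functions of degree `≤ n` with integer coefficients on `ℍ`. -/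
noncomputable def polyZ (n : ℕ) : Submodule ℤ (ℍ → ℂ) := (degreeLE ℤ n).map evalZ

theorem mem_polyC_iff {n : ℕ} {ψ : ℍ → ℂ} :
    ψ ∈ polyC n ↔ ∃ P : ℂ[X], P.natDegree ≤ n ∧ ∀ y : ℍ, ψ y = P.eval (y : ℂ) := by
  constructor
  · rintro ⟨P, hP, rfl⟩
    exact ⟨P, natDegree_le_iff_degree_le.mpr (mem_degreeLE.mp hP), fun y => rfl⟩
  · rintro ⟨P, hP, h⟩
    exact ⟨P, mem_degreeLE.mpr (natDegree_le_iff_degree_le.mp hP), (funext h).symm⟩

theorem mem_polyZ_iff {n : ℕ} {ψ : ℍ → ℂ} :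
    ψ ∈ polyZ n ↔ ∃ P : ℤ[X], P.natDegree ≤ n ∧ ∀ y : ℍ, ψ y = aeval (y : ℂ) P := by
  constructor
  · rintro ⟨P, hP, rfl⟩
    exact ⟨P, natDegree_le_iff_degree_le.mpr (mem_degreeLE.mp hP), fun y => rfl⟩
  · rintro ⟨P, hP, h⟩
    exact ⟨P, mem_degreeLE.mpr (natDegree_le_iff_degree_le.mp hP), (funext h).symm⟩

theorem polyZ_fg (n : ℕ) : (polyZ n).FG := by
  apply Submodule.FG.map
  rw [degreeLE_eq_span_X_pow]
  exact Submodule.fg_span (Finset.finite_toSet _)

theorem polyZ_eq_span (n : ℕ) :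
    polyZ n = Submodule.span ℤ ((fun i : ℕ => (fun y : ℍ => (y : ℂ) ^ i)) '' (Set.Iic n)) := by
  rw [polyZ, degreeLE_eq_span_X_pow, Submodule.map_span]
  congr 1
  ext ψ
  simp only [Finset.coe_image, Finset.coe_range, Set.mem_image, Set.mem_Iio, Set.mem_Iic,
    exists_exists_and_eq_and]
  constructor
  · rintro ⟨i, hi, rfl⟩
    exact ⟨i, Nat.lt_succ_iff.mp hi, by funext y; simp⟩
  · rintro ⟨i, hi, rfl⟩
    exact ⟨i, Nat.lt_succ_iff.mpr hi, by funext y; simp⟩

theorem polyC_eq_span (n : ℕ) :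
    polyC n = Submodule.span ℂ ((fun i : ℕ => (fun y : ℍ => (y : ℂ) ^ i)) '' (Set.Iic n)) := by
  rw [polyC, degreeLE_eq_span_X_pow, Submodule.map_span]
  congr 1
  ext ψ
  simp only [Finset.coe_image, Finset.coe_range, Set.mem_image, Set.mem_Iio, Set.mem_Iic,
    exists_exists_and_eq_and]
  constructor
  · rintro ⟨i, hi, rfl⟩
    exact ⟨i, Nat.lt_succ_iff.mp hi, by funext y; simp⟩
  · rintro ⟨i, hi, rfl⟩
    exact ⟨i, Nat.lt_succ_iff.mpr hi, by funext y; simp⟩

theorem polyC_le_span_polyZ (n : ℕ) :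
    polyC n ≤ Submodule.span ℂ (polyZ n : Set (ℍ → ℂ)) := by
  rw [polyC_eq_span]
  apply Submodule.span_mono
  rw [polyZ_eq_span]
  exact Submodule.subset_span

/-- The weight `-n` action without determinant normalisation. -/
noncomputable def act (n : ℕ) (δ : GL (Fin 2) ℝ) : (ℍ → ℂ) →ₗ[ℂ] (ℍ → ℂ) where
  toFun ψ := fun y => denom δ y ^ n * ψ (δ • y)
  map_add' ψ ψ' := by funext y; simp [mul_add]
  map_smul' c ψ := by funext y; simp; ring

@[simp] theorem act_apply (n : ℕ) (δ : GL (Fin 2) ℝ) (ψ : ℍ → ℂ) (y : ℍ) :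
    act n δ ψ y = denom δ y ^ n * ψ (δ • y) := rfl

/-- `δ` has integer entries. -/
def IsIntMat (δ : GL (Fin 2) ℝ) : Prop := ∀ i j, ∃ m : ℤ, δ i j = (m : ℝ)

theorem act_mem_polyZ {n : ℕ} {δ : GL (Fin 2) ℝ} (hdet : 0 < δ.det.val) (hδ : IsIntMat δ)
    {ψ : ℍ → ℂ} (hψ : ψ ∈ polyZ n) : act n δ ψ ∈ polyZ n := by
  obtain ⟨a, ha⟩ := hδ 0 0
  obtain ⟨b, hb⟩ := hδ 0 1
  obtain ⟨c, hc⟩ := hδ 1 0
  obtain ⟨d, hd⟩ := hδ 1 1
  have key : polyZ n ≤ (polyZ n).comap ((act n δ).restrictScalars ℤ) := by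
    conv_lhs => rw [polyZ_eq_span]
    rw [Submodule.span_le]
    rintro _ ⟨i, hi, rfl⟩
    have hi' : i ≤ n := hi
    simp only [SetLike.mem_coe, Submodule.mem_comap, LinearMap.coe_restrictScalars]
    rw [mem_polyZ_iff]
    refine ⟨(C a * X + C b) ^ i * (C c * X + C d) ^ (n - i), ?_, fun y => ?_⟩
    · calc ((C a * X + C b) ^ i * (C c * X + C d) ^ (n - i)).natDegree
          ≤ ((C a * X + C b) ^ i).natDegree + ((C c * X + C d) ^ (n - i)).natDegree :=
            natDegree_mul_le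
        _ ≤ i * (C a * X + C b).natDegree + (n - i) * (C c * X + C d).natDegree :=
            add_le_add natDegree_pow_le natDegree_pow_le
        _ ≤ i * 1 + (n - i) * 1 :=
            add_le_add (Nat.mul_le_mul_left _ natDegree_linear_le)
              (Nat.mul_le_mul_left _ natDegree_linear_le)
        _ = n := by omega
    · have hden : denom δ y ≠ 0 := denom_ne_zero δ y
      have h1 : ((δ • y : ℍ) : ℂ) = num δ y / denom δ y := coe_smul_of_det_pos hdet y
      have h2 : num δ y = a * y + b := by simp [num, ha, hb]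
      have h3 : denom δ y = c * y + d := by simp [denom, hc, hd]
      simp only [act_apply, h1, map_mul, map_pow, map_add, aeval_X, eq_intCast, map_intCast]
      rw [← h2, ← h3, div_pow]
      have : denom δ y ^ n = denom δ y ^ i * denom δ y ^ (n - i) := by
        rw [← pow_add]; congr 1; omega
      rw [this]
      field_simp
  exact key hψ

theorem act_eq_slash (n : ℕ) (δ : GL (Fin 2) ℝ) (hdet : 0 < δ.det.val) (ψ : ℍ → ℂ) :
    act n δ ψ = (((δ.det.val : ℝ) : ℂ) ^ (n + 1)) • (ψ ∣[-(n : ℤ)] δ) := by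
  funext y
  have hσ : UpperHalfPlane.σ δ = .refl ℝ ℂ := by
    rw [UpperHalfPlane.σ, if_pos hdet]
  have hdetC : ((δ.det.val : ℝ) : ℂ) ≠ 0 := by exact_mod_cast hdet.ne'
  simp only [act_apply, Pi.smul_apply, smul_eq_mul, ModularForm.slash_apply, hσ,
    ContinuousAlgEquiv.refl_apply, abs_of_pos hdet, neg_neg, zpow_natCast]
  have : ((δ.det.val : ℝ) : ℂ) ^ (-(n : ℤ) - 1) = (((δ.det.val : ℝ) : ℂ) ^ (n + 1))⁻¹ := by
    rw [show -(n : ℤ) - 1 = -((n + 1 : ℕ) : ℤ) by push_cast; ring, zpow_neg, zpow_natCast]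
  rw [this]
  field_simp

end Fermat.Agent.S22P
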