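import Fermat.Agent.S22P.Chain
import Fermat.Agent.S22P.Poly

set_option autoImplicit false

open UpperHalfPlane hiding I
open Filter Topology Complex Function Polynomial
open scoped Manifold ModularForm MatrixGroups

namespace Fermat.Agent.S22P

theorem isDer_of_hasDerivAt {φ : ℂ → ℂ} {φ' : ℍ → ℂ} (h : ∀ τ : ℍ, HasDerivAt φ (φ' τ) τ) :
    IsDer (fun u : ℍ => φ u) φ' := by
  intro τ
  refine (h τ).congr_of_eventuallyEq ?_
  filter_upwards [isOpen_upperHalfPlaneSet.mem_nhds τ.im_pos] with z hz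
  simp [ofComplex_apply_of_im_pos hz]

theorem IsDer.mul {G g G' g' : ℍ → ℂ} (h : IsDer G g) (h' : IsDer G' g') :
    IsDer (G * G') (g * G' + G * g') := by
  intro τ
  have := (h τ).mul (h' τ)
  simpa using! this

theorem IsDer.congr {G g g' : ℍ → ℂ} (h : IsDer G g) (e : ∀ τ, g τ = g' τ) : IsDer G g' := by
  have : g = g' := funext e
  rwa [← this]

theorem IsDer.comp_smul {G g : ℍ → ℂ} (hG : IsDer G g) (γ : GL (Fin 2) ℝ)
    (hdet : 0 < γ.det.val) :
    IsDer (fun τ => G (γ • τ)) (fun τ => g (γ • τ) * (((γ.det.val : ℝ) : ℂ) / denom γ τ ^ 2)) := by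
  intro τ
  have hdet' : 0 < (γ : Matrix (Fin 2) (Fin 2) ℝ).det := hdet
  have h1 := (hasStrictDerivAt_smul hdet' τ).hasDerivAt
  have h2 : HasDerivAt (G ∘ ofComplex) (g (γ • τ))
      ((fun z : ℂ => ((γ • ofComplex z : ℍ) : ℂ)) τ) := by
    simpa using hG (γ • τ)
  have h3 := h2.comp (τ : ℂ) h1
  have hfun : (fun τ => G (γ • τ)) ∘ ofComplex =
      (G ∘ ofComplex) ∘ fun z : ℂ => ((γ • ofComplex z : ℍ) : ℂ) := by
    funext z
    simp
  rw [hfun]
  exact h3

/-- The auxiliary two-variable primitive of `(y - u) ^ n * F 0 u`. -/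
noncomputable def Psi : ℕ → (ℕ → ℍ → ℂ) → ℂ → ℍ → ℂ
  | 0, F, _, u => F 1 u
  | (n + 1), F, y, u => (y - u) ^ (n + 1) * F 1 u + (n + 1) * Psi n (fun s => F (s + 1)) y u

theorem Psi_isDer (n : ℕ) : ∀ (F : ℕ → ℍ → ℂ), (∀ s, IsDer (F (s + 1)) (F s)) → ∀ y : ℂ,
    IsDer (Psi n F y) (fun u => (y - u) ^ n * F 0 u) := by
  induction n with
  | zero =>
    intro F hF y
    have : Psi 0 F y = F 1 := rfl
    rw [this]
    exact (hF 0).congr fun τ => by simp
  | succ n ih =>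
    intro F hF y
    have h1 : IsDer (fun u : ℍ => (y - (u : ℂ)) ^ (n + 1))
        (fun u : ℍ => -((n + 1 : ℕ) : ℂ) * (y - (u : ℂ)) ^ n) := by
      apply isDer_of_hasDerivAt (φ := fun z : ℂ => (y - z) ^ (n + 1))
      intro τ
      have := ((hasDerivAt_id (τ : ℂ)).const_sub y).pow (n + 1)
      have e : (fun z : ℂ => (y - z) ^ (n + 1)) = (fun x : ℂ => y - id x) ^ (n + 1) := by
        funext z; simp
      have hv : -((n + 1 : ℕ) : ℂ) * (y - (τ : ℂ)) ^ n =
          ((n + 1 : ℕ) : ℂ) * (y - id (τ : ℂ)) ^ (n + 1 - 1) * -1 := by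
        simp only [id, Nat.add_sub_cancel]
        ring
      rw [e, hv]
      exact this
    have h2 := h1.mul (hF 0)
    have h3 := (ih (fun s => F (s + 1)) (fun s => hF (s + 1)) y).const_smul ((n : ℂ) + 1)
    have h4 := h2.add h3
    have e : Psi (n + 1) F y = (fun u : ℍ => (y - (u : ℂ)) ^ (n + 1)) * F 1 +
        ((n : ℂ) + 1) • Psi n (fun s => F (s + 1)) y := by
      funext u
      simp [Psi]
    rw [e]
    refine h4.congr fun τ => ?_
    simp only [Pi.add_apply, Pi.mul_apply, Pi.smul_apply, smul_eq_mul]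
    push_cast
    ring

theorem Psi_diag (n : ℕ) : ∀ (F : ℕ → ℍ → ℂ) (u : ℍ), Psi n F u u = n.factorial * F (n + 1) u := by
  induction n with
  | zero => intro F u; simp [Psi]
  | succ n ih =>
    intro F u
    simp only [Psi, sub_self, ne_eq, Nat.add_eq_zero_iff, one_ne_zero, and_false,
      not_false_eq_true, zero_pow, zero_mul, zero_add, ih, Nat.factorial_succ]
    push_cast
    ring

theorem Psi_poly (γ : GL (Fin 2) ℝ) (hdet : 0 < γ.det.val) (n : ℕ) :
    ∀ (F : ℕ → ℍ → ℂ) (p : ℍ), ∃ P : ℂ[X], P.natDegree ≤ n ∧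
      ∀ y : ℍ, denom γ y ^ n * Psi n F ((γ • y : ℍ) : ℂ) p = P.eval (y : ℂ) := by
  induction n with
  | zero =>
    intro F p
    exact ⟨C (F 1 p), by simp, fun y => by simp [Psi]⟩
  | succ n ih =>
    intro F p
    obtain ⟨P, hP, hPe⟩ := ih (fun s => F (s + 1)) p
    refine ⟨(C ((γ 0 0 : ℝ) - p * (γ 1 0 : ℝ) : ℂ) * X + C ((γ 0 1 : ℝ) - p * (γ 1 1 : ℝ) : ℂ)) ^ (n + 1)
      * C (F 1 p) + C ((n : ℂ) + 1) * ((C ((γ 1 0 : ℝ) : ℂ) * X + C ((γ 1 1 : ℝ) : ℂ)) * P), ?_, ?_⟩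
    · refine (natDegree_add_le _ _).trans (max_le ?_ ?_)
      · refine (natDegree_mul_C_le _ _).trans ?_
        refine natDegree_pow_le.trans ?_
        calc (n + 1) * _ ≤ (n + 1) * 1 := Nat.mul_le_mul_left _ natDegree_linear_le
          _ = n + 1 := by ring
      · refine (natDegree_C_mul_le _ _).trans ?_
        refine natDegree_mul_le.trans ?_
        calc _ ≤ 1 + n := add_le_add natDegree_linear_le hP
          _ = n + 1 := by ring
    · intro y
      have hden : denom γ y ≠ 0 := denom_ne_zero γ y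
      have h1 : ((γ • y : ℍ) : ℂ) = num γ y / denom γ y := coe_smul_of_det_pos hdet y
      simp only [Psi, eval_add, eval_mul, eval_pow, eval_C, eval_X, ← hPe y]
      rw [h1]
      have e1 : denom γ y * (num γ y / denom γ y - p) =
          ((γ 0 0 : ℝ) - p * (γ 1 0 : ℝ) : ℂ) * y + ((γ 0 1 : ℝ) - p * (γ 1 1 : ℝ) : ℂ) := by
        field_simp
        simp only [num, denom]
        ring
      have e2 : ((γ 1 0 : ℝ) : ℂ) * y + ((γ 1 1 : ℝ) : ℂ) = denom γ y := by
        simp [denom]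
      rw [← e1, e2, mul_pow]
      ring

theorem smul_sub_smul (γ : GL (Fin 2) ℝ) (hdet : γ.det.val = 1) (y u : ℍ) :
    ((γ • y : ℍ) : ℂ) - ((γ • u : ℍ) : ℂ) = ((y : ℂ) - u) / (denom γ y * denom γ u) := by
  have hpos : 0 < γ.det.val := by rw [hdet]; exact one_pos
  rw [coe_smul_of_det_pos hpos, coe_smul_of_det_pos hpos]
  have h1 := denom_ne_zero γ y
  have h2 := denom_ne_zero γ u
  have hd : ((γ 0 0 : ℝ) : ℂ) * (γ 1 1 : ℝ) - (γ 0 1 : ℝ) * (γ 1 0 : ℝ) = 1 := by
    have : (γ : Matrix (Fin 2) (Fin 2) ℝ).det = 1 := hdet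
    rw [Matrix.det_fin_two] at this
    exact_mod_cast this
  field_simp
  simp only [num, denom]
  linear_combination ((y : ℂ) - u) * hd

/-- Bol-type lemma. -/
theorem bol {w : ℕ} {F G : ℕ → ℍ → ℂ} (hF : ∀ s, IsDer (F (s + 1)) (F s))
    (hG : ∀ s, IsDer (G (s + 1)) (G s)) (γ : GL (Fin 2) ℝ) (hγ : γ.det.val = 1)
    (h0 : G 0 = F 0 ∣[(w : ℤ) + 2] γ) :
    (F (w + 1)) ∣[-(w : ℤ)] γ - G (w + 1) ∈ polyC w := by
  have hpos : 0 < γ.det.val := by rw [hγ]; exact one_pos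
  have hσ : UpperHalfPlane.σ γ = .refl ℝ ℂ := by
    rw [UpperHalfPlane.σ, if_pos hpos]
  -- the function `A y u`
  have hA : ∀ y : ℍ, IsDer (fun u => denom γ y ^ w * Psi w F ((γ • y : ℍ) : ℂ) (γ • u)
      - Psi w G y u) 0 := by
    intro y
    have h1 := ((Psi_isDer w F hF ((γ • y : ℍ) : ℂ)).comp_smul γ hpos).const_smul (denom γ y ^ w)
    have h2 := h1.sub (Psi_isDer w G hG y)
    refine IsDer.congr h2 fun u => ?_
    simp only [Pi.sub_apply, Pi.smul_apply, smul_eq_mul, Pi.zero_apply, h0,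
      ModularForm.slash_apply, hσ, ContinuousAlgEquiv.refl_apply, hγ, abs_one, ofReal_one,
      one_zpow, mul_one]
    rw [smul_sub_smul γ hγ]
    have hy := denom_ne_zero γ y
    have hu := denom_ne_zero γ u
    have e : denom γ u ^ (-((w : ℤ) + 2)) = (denom γ u ^ (w + 2))⁻¹ := by
      rw [zpow_neg]; norm_cast
    rw [e, div_pow, mul_pow]
    field_simp
    ring
  obtain ⟨P, hP, hPe⟩ := Psi_poly γ hpos w F (γ • UpperHalfPlane.I)
  obtain ⟨Q, hQ, hQe⟩ := Psi_poly 1 (by simp) w G UpperHalfPlane.I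
  rw [mem_polyC_iff]
  refine ⟨C ((w.factorial : ℂ)⁻¹) * (P - Q), ?_, fun y => ?_⟩
  · refine (natDegree_C_mul_le _ _).trans ((natDegree_sub_le _ _).trans (max_le hP hQ))
  · have h1 := (hA y).const_of_zero y UpperHalfPlane.I
    rw [Psi_diag, Psi_diag, hPe y] at h1
    have h2 := hQe y
    simp only [one_smul, denom_one, one_pow, one_mul] at h2
    rw [h2] at h1
    have hw : (w.factorial : ℂ) ≠ 0 := by exact_mod_cast w.factorial_ne_zero
    simp only [Pi.sub_apply, ModularForm.slash_apply, hσ, ContinuousAlgEquiv.refl_apply, hγ,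
      abs_one, ofReal_one, one_zpow, mul_one, neg_neg, zpow_natCast, eval_mul, eval_C, eval_sub]
    rw [← h1]
    field_simp

end Fermat.Agent.S22P
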