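import Mathlib

set_option autoImplicit false

namespace Fermat.Agent.S22P

/-- Integer-lattice trick: a `ℤ`-algebra of endomorphisms of `V` each of whose generators is
intertwined (through an injective `ev : V → W`) with an endomorphism of `W` preserving a finitely
generated `ℤ`-lattice whose `ℂ`-span contains the image of `ev`, is a finite `ℤ`-module. -/
theorem finite_adjoin_of_lattice {V W : Type*} [AddCommGroup V] [Module ℂ V] [AddCommGroup W]
    [Module ℂ W] (ev : V →ₗ[ℂ] W) (hev : Function.Injective ev) (Λ : Submodule ℤ W) (hΛ : Λ.FG)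
    (hspan : LinearMap.range ev ≤ Submodule.span ℂ (Λ : Set W))
    (G : Set (Module.End ℂ V))
    (hG : ∀ T ∈ G, ∃ φ : Module.End ℂ W, (∀ x ∈ Λ, φ x ∈ Λ) ∧ ∀ v, φ (ev v) = ev (T v)) :
    Module.Finite ℤ (Algebra.adjoin ℤ G) := by
  classical
  haveI : Module.Finite ℤ Λ := Module.Finite.iff_fg.mpr hΛ
  -- the subalgebra of all intertwined endomorphisms
  let 𝒮 : Subalgebra ℤ (Module.End ℂ V) :=
    { carrier := {T | ∃ φ : Module.End ℂ W, (∀ x ∈ Λ, φ x ∈ Λ) ∧ ∀ v, φ (ev v) = ev (T v)}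
      mul_mem' := by
        rintro T T' ⟨φ, h1, h2⟩ ⟨φ', h1', h2'⟩
        refine ⟨φ * φ', fun x hx => h1 _ (h1' x hx), fun v => ?_⟩
        simp only [Module.End.mul_apply, h2', h2]
      add_mem' := by
        rintro T T' ⟨φ, h1, h2⟩ ⟨φ', h1', h2'⟩
        refine ⟨φ + φ', fun x hx => Λ.add_mem (h1 x hx) (h1' x hx), fun v => ?_⟩
        simp only [LinearMap.add_apply, h2', h2, map_add]
      algebraMap_mem' := by
        intro n
        refine ⟨algebraMap ℤ _ n, fun x hx => ?_, fun v => ?_⟩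
        · simp only [Module.algebraMap_end_apply]
          exact Λ.smul_mem n hx
        · simp only [Module.algebraMap_end_apply, map_zsmul] }
  have hle : Algebra.adjoin ℤ G ≤ 𝒮 := Algebra.adjoin_le hG
  -- the graph
  let 𝒢 : Submodule ℤ ((Λ →ₗ[ℤ] Λ) × Module.End ℂ V) :=
    { carrier := {p | ∃ φ : Module.End ℂ W, (∀ x : Λ, ((p.1 x : Λ) : W) = φ x) ∧
        ∀ v, φ (ev v) = ev (p.2 v)}
      add_mem' := by
        rintro p p' ⟨φ, h1, h2⟩ ⟨φ', h1', h2'⟩
        refine ⟨φ + φ', fun x => ?_, fun v => ?_⟩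
        · simp only [Prod.fst_add, LinearMap.add_apply, Submodule.coe_add, h1, h1']
        · simp only [Prod.snd_add, LinearMap.add_apply, h2, h2', map_add]
      zero_mem' := ⟨0, fun x => by simp, fun v => by simp⟩
      smul_mem' := by
        rintro n p ⟨φ, h1, h2⟩
        refine ⟨n • φ, fun x => ?_, fun v => ?_⟩
        · simp only [Prod.smul_fst, LinearMap.smul_apply, Submodule.coe_smul, h1]
        · simp only [Prod.smul_snd, LinearMap.smul_apply, h2, map_zsmul] }
  have hinj : Function.Injective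
      ((LinearMap.fst ℤ (Λ →ₗ[ℤ] Λ) (Module.End ℂ V)).comp 𝒢.subtype) := by
    rw [← LinearMap.ker_eq_bot, LinearMap.ker_eq_bot']
    rintro ⟨⟨a, T⟩, φ, h1, h2⟩ h0
    have ha : a = 0 := h0
    subst ha
    have hφ : ∀ x ∈ Submodule.span ℂ (Λ : Set W), φ x = 0 := by
      intro x hx
      induction hx using Submodule.span_induction with
      | mem x hx => simpa using (h1 ⟨x, hx⟩).symm
      | zero => simp
      | add x y _ _ hx hy => simp [hx, hy]
      | smul c x _ hx => simp [hx]
    have hT : T = 0 := by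
      ext v
      apply hev
      have := h2 v
      simp only at this
      rw [← this, hφ _ (hspan ⟨v, rfl⟩)]
      simp
    subst hT
    rfl
  haveI : Module.Finite ℤ 𝒢 := Module.Finite.of_injective _ hinj
  have h𝒮fg : (Subalgebra.toSubmodule 𝒮).FG := by
    have hmap : Subalgebra.toSubmodule 𝒮 =
        𝒢.map (LinearMap.snd ℤ (Λ →ₗ[ℤ] Λ) (Module.End ℂ V)) := by
      ext T
      constructor
      · rintro ⟨φ, h1, h2⟩
        refine ⟨((φ.restrictScalars ℤ).restrict h1, T), ⟨φ, fun x => rfl, h2⟩, rfl⟩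
      · rintro ⟨⟨a, T'⟩, ⟨φ, h1, h2⟩, rfl⟩
        refine ⟨φ, fun x hx => ?_, h2⟩
        rw [← h1 ⟨x, hx⟩]
        exact (a ⟨x, hx⟩).2
    rw [hmap]
    exact (Module.Finite.iff_fg.mp ‹Module.Finite ℤ 𝒢›).map _
  haveI : Module.Finite ℤ 𝒮 := Module.Finite.iff_fg.mpr h𝒮fg
  exact Module.Finite.of_injective (Subalgebra.inclusion hle).toLinearMap
    (Subalgebra.inclusion_injective hle)

end Fermat.Agent.S22P
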