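import Fermat.Agent.S22P.Prim

set_option autoImplicit false

open UpperHalfPlane hiding I
open Filter Topology Complex Function
open scoped Manifold ModularForm MatrixGroups

namespace Fermat.Agent.S22P

theorem IsDer.comp_vadd {G g : ℍ → ℂ} (hG : IsDer G g) (h : ℝ) :
    IsDer (fun τ => G (h +ᵥ τ)) (fun τ => g (h +ᵥ τ)) := by
  intro τ
  have h1 : HasDerivAt (G ∘ ofComplex) (g (h +ᵥ τ)) ((τ : ℂ) + h) := by
    have := hG (h +ᵥ τ)
    rwa [UpperHalfPlane.coe_vadd, add_comm] at this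
  have h2 := h1.comp_add_const (τ : ℂ) (h : ℂ)
  refine h2.congr_of_eventuallyEq ?_
  filter_upwards [isOpen_upperHalfPlaneSet.mem_nhds τ.im_pos] with z hz
  have hz' : 0 < (z + h).im := by simpa using hz
  simp only [comp_apply, ofComplex_apply_of_im_pos hz, ofComplex_apply_of_im_pos hz']
  congr 1
  ext
  simp [add_comm]

theorem tendsto_vadd_atImInfty (h : ℝ) :
    Tendsto (fun τ : ℍ => h +ᵥ τ) atImInfty atImInfty := by
  rw [atImInfty, tendsto_comap_iff]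
  have : (UpperHalfPlane.im ∘ fun τ : ℍ => h +ᵥ τ) = UpperHalfPlane.im := by
    funext τ; simp
  rw [this]
  exact tendsto_comap

theorem IsPrim.isPer {h : ℝ} {G g : ℍ → ℂ} (hG : IsPrim G g) (hg : IsPer h g) : IsPer h G := by
  have h1 : IsPrim (fun τ => G (h +ᵥ τ)) g := by
    refine ⟨?_, hG.2.comp (tendsto_vadd_atImInfty h)⟩
    have := hG.1.comp_vadd h
    have e : (fun τ => g (h +ᵥ τ)) = g := funext hg
    rwa [e] at this
  intro τ
  exact congrFun (h1.unique hG) τ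

/-- Holomorphic, periodic and vanishing at `i∞`. -/
structure Good (h : ℝ) (g : ℍ → ℂ) : Prop where
  mdiff : MDiff g
  per : IsPer h g
  zero : Tendsto g atImInfty (𝓝 0)

theorem Good.exists_prim {h : ℝ} (hh : 0 < h) {g : ℍ → ℂ} (hg : Good h g) :
    ∃ G, IsPrim G g ∧ Good h G := by
  obtain ⟨G, hG⟩ := exists_isPrim hh hg.mdiff hg.per hg.zero
  exact ⟨G, hG, hG.1.mdiff, hG.isPer hg.per, hG.2⟩

/-- A chain of iterated primitives vanishing at `i∞`. -/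
def IsChain (F : ℕ → ℍ → ℂ) : Prop := ∀ s, IsPrim (F (s + 1)) (F s)

theorem Good.exists_chain {h : ℝ} (hh : 0 < h) {f : ℍ → ℂ} (hf : Good h f) :
    ∃ F : ℕ → ℍ → ℂ, F 0 = f ∧ IsChain F := by
  classical
  let step : {g : ℍ → ℂ // Good h g} → {g : ℍ → ℂ // Good h g} := fun g =>
    ⟨(g.2.exists_prim hh).choose, (g.2.exists_prim hh).choose_spec.2⟩
  have hstep : ∀ g, IsPrim (step g).1 g.1 := fun g => (g.2.exists_prim hh).choose_spec.1
  refine ⟨fun s => (step^[s] ⟨f, hf⟩).1, rfl, fun s => ?_⟩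
  simp only [Function.iterate_succ_apply']
  exact hstep _

theorem IsChain.unique {F F' : ℕ → ℍ → ℂ} (hF : IsChain F) (hF' : IsChain F')
    (h0 : F 0 = F' 0) : ∀ s, F s = F' s := by
  intro s
  induction s with
  | zero => exact h0
  | succ s ih =>
    have := hF' s
    rw [← ih] at this
    exact (hF s).unique this

theorem IsChain.add {F F' : ℕ → ℍ → ℂ} (hF : IsChain F) (hF' : IsChain F') :
    IsChain (fun s => F s + F' s) := fun s => (hF s).add (hF' s)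

theorem IsChain.const_smul {F : ℕ → ℍ → ℂ} (c : ℂ) (hF : IsChain F) :
    IsChain (fun s => c • F s) := fun s => (hF s).const_smul c

theorem IsChain.sum {ι : Type*} (t : Finset ι) {F : ι → ℕ → ℍ → ℂ}
    (hF : ∀ i ∈ t, IsChain (F i)) : IsChain (fun s => ∑ i ∈ t, F i s) :=
  fun s => IsPrim.sum t fun i hi => hF i hi s

theorem IsChain.eq_zero_of_eq_zero {F : ℕ → ℍ → ℂ} (hF : IsChain F) {n : ℕ} (hn : F n = 0) :
    F 0 = 0 := by
  induction n with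
  | zero => exact hn
  | succ n ih =>
    apply ih
    have := (hF n).1
    rw [hn] at this
    exact this.eq_zero_of_zero

open Classical in
/-- The `n`-fold iterated primitive vanishing at `i∞` (junk value `0` if it does not exist). -/
noncomputable def eichler (n : ℕ) (f : ℍ → ℂ) : ℍ → ℂ :=
  if h : ∃ F : ℕ → ℍ → ℂ, F 0 = f ∧ IsChain F then h.choose n else 0

theorem eichler_eq {F : ℕ → ℍ → ℂ} (hF : IsChain F) (n : ℕ) : eichler n (F 0) = F n := by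
  have h : ∃ F' : ℕ → ℍ → ℂ, F' 0 = F 0 ∧ IsChain F' := ⟨F, rfl, hF⟩
  rw [eichler, dif_pos h]
  exact h.choose_spec.2.unique hF h.choose_spec.1 n

/-- Slash by an upper triangular matrix of positive determinant and differentiation. -/
theorem IsDer.slash_of_c_eq_zero {G g : ℍ → ℂ} (hG : IsDer G g) (δ : GL (Fin 2) ℝ)
    (hdet : 0 < δ.det.val) (hc : δ 1 0 = 0) (κ : ℤ) :
    IsDer (((δ.det.val : ℝ) : ℂ) • (G ∣[κ] δ)) (g ∣[κ + 2] δ) := by
  intro τ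
  have hdet' : 0 < (δ : Matrix (Fin 2) (Fin 2) ℝ).det := hdet
  have h1 := (hasStrictDerivAt_smul hdet' τ).hasDerivAt
  have h2 : HasDerivAt (G ∘ ofComplex) (g (δ • τ)) ((fun z : ℂ => ((δ • ofComplex z : ℍ) : ℂ)) τ) := by
    simpa using hG (δ • τ)
  have h3 := h2.comp (τ : ℂ) h1
  have hden : ∀ z : ℍ, denom δ z = (δ 1 1 : ℝ) := by
    intro z; simp [denom, hc]
  have hd11 : ((δ 1 1 : ℝ) : ℂ) ≠ 0 := by
    have := denom_ne_zero δ τ
    rwa [hden] at this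
  have hdetC : ((δ.det.val : ℝ) : ℂ) ≠ 0 := by exact_mod_cast hdet.ne'
  have hσ : UpperHalfPlane.σ δ = .refl ℝ ℂ := by
    rw [UpperHalfPlane.σ, if_pos hdet]
  have hfun : (((δ.det.val : ℝ) : ℂ) • (G ∣[κ] δ)) ∘ ofComplex =
      fun z : ℂ => (((δ.det.val : ℝ) : ℂ) * (((δ.det.val : ℝ) : ℂ) ^ (κ - 1) * ((δ 1 1 : ℝ) : ℂ) ^ (-κ))) *
        ((G ∘ ofComplex) ∘ fun z : ℂ => ((δ • ofComplex z : ℍ) : ℂ)) z := by
    funext z
    simp only [comp_apply, Pi.smul_apply, smul_eq_mul, ModularForm.slash_apply, hσ, hden,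
      ContinuousAlgEquiv.refl_apply, abs_of_pos hdet, ofComplex_apply]
    ring
  rw [hfun]
  have h4 := h3.const_mul (((δ.det.val : ℝ) : ℂ) * (((δ.det.val : ℝ) : ℂ) ^ (κ - 1) * ((δ 1 1 : ℝ) : ℂ) ^ (-κ)))
  have hval : (g ∣[κ + 2] δ) τ = (((δ.det.val : ℝ) : ℂ) * (((δ.det.val : ℝ) : ℂ) ^ (κ - 1) * ((δ 1 1 : ℝ) : ℂ) ^ (-κ))) *
      (g (δ • τ) * (((δ : Matrix (Fin 2) (Fin 2) ℝ).det : ℂ) / denom δ τ ^ 2)) := by
    simp only [ModularForm.slash_apply, hσ, hden, ContinuousAlgEquiv.refl_apply, abs_of_pos hdet]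
    have e1 : ((δ : Matrix (Fin 2) (Fin 2) ℝ).det : ℂ) = ((δ.det.val : ℝ) : ℂ) := rfl
    rw [e1]
    have e2 : ((δ.det.val : ℝ) : ℂ) ^ (κ + 2 - 1) = ((δ.det.val : ℝ) : ℂ) ^ (κ - 1) * ((δ.det.val : ℝ) : ℂ) ^ 2 := by
      rw [show κ + 2 - 1 = (κ - 1) + 2 by ring, zpow_add₀ hdetC]; norm_cast
    have e3 : ((δ 1 1 : ℝ) : ℂ) ^ (-(κ + 2)) = ((δ 1 1 : ℝ) : ℂ) ^ (-κ) / ((δ 1 1 : ℝ) : ℂ) ^ 2 := by
      rw [show -(κ + 2) = -κ + (-2) by ring, zpow_add₀ hd11, zpow_neg, div_eq_mul_inv]; norm_cast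
    rw [e2, e3]
    field_simp
  rw [hval]
  exact h4

theorem IsPrim.slash_of_c_eq_zero {G g : ℍ → ℂ} (hG : IsPrim G g) (δ : GL (Fin 2) ℝ)
    (hdet : 0 < δ.det.val) (hc : δ 1 0 = 0) (κ : ℤ) :
    IsPrim (((δ.det.val : ℝ) : ℂ) • (G ∣[κ] δ)) (g ∣[κ + 2] δ) := by
  refine ⟨hG.1.slash_of_c_eq_zero δ hdet hc κ, ?_⟩
  have h1 : IsZeroAtImInfty (G ∣[κ] δ) := IsZeroAtImInfty.slash κ hc hG.2
  have h2 : Tendsto (G ∣[κ] δ) atImInfty (𝓝 0) := h1
  simpa using! h2.const_smul ((δ.det.val : ℝ) : ℂ)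

/-- The chain of `f ∣[k] δ` for `δ` upper triangular. -/
theorem IsChain.slash_of_c_eq_zero {F : ℕ → ℍ → ℂ} (hF : IsChain F) (δ : GL (Fin 2) ℝ)
    (hdet : 0 < δ.det.val) (hc : δ 1 0 = 0) (k : ℤ) :
    IsChain (fun s => (((δ.det.val : ℝ) : ℂ) ^ s) • (F s ∣[k - 2 * s] δ)) := by
  intro s
  have h1 := ((hF s).slash_of_c_eq_zero δ hdet hc (k - 2 * ((s + 1 : ℕ) : ℤ))).const_smul
    (((δ.det.val : ℝ) : ℂ) ^ s)
  have e : k - 2 * ((s + 1 : ℕ) : ℤ) + 2 = k - 2 * (s : ℤ) := by push_cast; ring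
  rw [e, smul_smul, ← pow_succ] at h1
  exact h1

end Fermat.Agent.S22P
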