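import Fermat.Agent.S22P.Eichler

set_option autoImplicit false

open UpperHalfPlane hiding I
open Filter Topology Complex Function Polynomial Matrix.SpecialLinearGroup CongruenceSubgroup
open scoped Manifold ModularForm MatrixGroups Pointwise

namespace Fermat.Agent.S22P

variable {N : ℕ} [NeZero N] {w : ℕ}

theorem exists_period (N : ℕ) [NeZero N] : ∃ M : ℕ, 0 < M ∧ ∀ g : SL(2, ℤ),
    (M : ℝ) ∈ (ConjAct.toConjAct (mapGL ℝ g)⁻¹ •
      ((Gamma0 N).map (mapGL ℝ) : Subgroup (GL (Fin 2) ℝ))).strictPeriods := by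
  obtain ⟨M, hM, h⟩ := Subgroup.IsArithmetic.exists_nat_mem_strictPeriods_conj
    ((Gamma0 N).map (mapGL ℝ) : Subgroup (GL (Fin 2) ℝ))
  refine ⟨M, hM, fun g => ?_⟩
  have := h g⁻¹
  rwa [map_inv] at this

theorem slash_eq_self (f : CuspForm (Gamma0 N) ((w : ℤ) + 2)) {g : SL(2, ℤ)} (hg : g ∈ Gamma0 N) :
    ⇑f ∣[(w : ℤ) + 2] mapGL ℝ g = ⇑f :=
  SlashInvariantFormClass.slash_action_eq f _ (Subgroup.mem_map_of_mem (mapGL ℝ) hg)

theorem good_slash (f : CuspForm (Gamma0 N) ((w : ℤ) + 2)) {M : ℕ}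
    (hM : ∀ g : SL(2, ℤ), (M : ℝ) ∈ (ConjAct.toConjAct (mapGL ℝ g)⁻¹ •
      ((Gamma0 N).map (mapGL ℝ) : Subgroup (GL (Fin 2) ℝ))).strictPeriods) (g : SL(2, ℤ)) :
    Good M (⇑f ∣[(w : ℤ) + 2] mapGL ℝ g) where
  mdiff := (CuspFormClass.holo f).slash _ _
  per := isPer_slash (fun γ hγ => SlashInvariantFormClass.slash_action_eq f γ hγ) _ (hM g)
  zero := CuspFormClass.zero_at_infty_slash f g

theorem exists_chain_slash (f : CuspForm (Gamma0 N) ((w : ℤ) + 2)) (g : SL(2, ℤ)) :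
    ∃ F : ℕ → ℍ → ℂ, F 0 = ⇑f ∣[(w : ℤ) + 2] mapGL ℝ g ∧ IsChain F := by
  obtain ⟨M, hM0, hM⟩ := exists_period N
  exact (good_slash f hM g).exists_chain (by exact_mod_cast hM0)

theorem exists_chain (f : CuspForm (Gamma0 N) ((w : ℤ) + 2)) :
    ∃ F : ℕ → ℍ → ℂ, F 0 = ⇑f ∧ IsChain F := by
  obtain ⟨F, h0, hF⟩ := exists_chain_slash f 1
  refine ⟨F, ?_, hF⟩
  rw [h0, map_one, SlashAction.slash_one]

/-- The "period cocycle" of a function. -/
noncomputable def cocyc (w : ℕ) (γ : GL (Fin 2) ℝ) : (ℍ → ℂ) →ₗ[ℂ] (ℍ → ℂ) :=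
  act w γ - LinearMap.id

@[simp] theorem cocyc_apply (w : ℕ) (γ : GL (Fin 2) ℝ) (φ : ℍ → ℂ) :
    cocyc w γ φ = act w γ φ - φ := rfl

theorem cocyc_mem_polyC (f : CuspForm (Gamma0 N) ((w : ℤ) + 2)) {g : SL(2, ℤ)}
    (hg : g ∈ Gamma0 N) : cocyc w (mapGL ℝ g) (eichler (w + 1) ⇑f) ∈ polyC w := by
  obtain ⟨F, h0, hF⟩ := exists_chain f
  rw [← h0, eichler_eq hF, cocyc_apply, act_eq_slash_of_det_one w _ (det_mapGL g)]
  refine bol (fun s => (hF s).1) (fun s => (hF s).1) _ (det_mapGL g) ?_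
  rw [h0, slash_eq_self f hg]

theorem eichler_bounded (f : CuspForm (Gamma0 N) ((w : ℤ) + 2))
    (hinv : ∀ g ∈ Gamma0 N, act w (mapGL ℝ g) (eichler (w + 1) ⇑f) = eichler (w + 1) ⇑f)
    (g : SL(2, ℤ)) :
    IsBoundedAtImInfty ((eichler (w + 1) ⇑f) ∣[-(w : ℤ)] mapGL ℝ g) := by
  obtain ⟨M, hM0, hM⟩ := exists_period N
  have hM0' : (0 : ℝ) < M := by exact_mod_cast hM0
  obtain ⟨F, h0, hF⟩ := exists_chain f
  obtain ⟨G, hG0, hG⟩ := exists_chain_slash f g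
  have hE : eichler (w + 1) ⇑f = F (w + 1) := by rw [← h0, eichler_eq hF]
  have hQ := bol (w := w) (fun s => (hF s).1) (fun s => (hG s).1) (mapGL ℝ g) (det_mapGL g)
    (by rw [hG0, h0])
  have hper1 : IsPer M ((F (w + 1)) ∣[-(w : ℤ)] mapGL ℝ g) := by
    refine isPer_slash (𝒢 := ((Gamma0 N).map (mapGL ℝ) : Subgroup (GL (Fin 2) ℝ))) ?_ _ (hM g)
    rintro _ ⟨γ, hγ, rfl⟩
    rw [← act_eq_slash_of_det_one w _ (det_mapGL γ), ← hE]
    exact hinv γ hγ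
  have hper2 : IsPer M (G (w + 1)) := hG.isPer (hG0 ▸ (good_slash f hM g).per) _
  have hper : IsPer M ((F (w + 1)) ∣[-(w : ℤ)] mapGL ℝ g - G (w + 1)) := by
    intro τ
    simp only [Pi.sub_apply, hper1 τ, hper2 τ]
  obtain ⟨c, hc⟩ := const_of_mem_polyC_of_isPer hQ hM0' hper
  have e : (eichler (w + 1) ⇑f) ∣[-(w : ℤ)] mapGL ℝ g = (fun _ => c) + G (w + 1) := by
    rw [hE, ← hc]; simp
  rw [e]
  have h1 : IsBoundedAtImInfty (fun _ : ℍ => c) := Filter.const_boundedAtFilter _ c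
  have h2 : IsBoundedAtImInfty (G (w + 1)) :=
    ZeroAtFilter.boundedAtFilter (hG w).2
  exact h1.add h2

theorem eq_zero_of_invariant (f : CuspForm (Gamma0 N) ((w : ℤ) + 2))
    (hinv : ∀ g ∈ Gamma0 N, act w (mapGL ℝ g) (eichler (w + 1) ⇑f) = eichler (w + 1) ⇑f) :
    f = 0 := by
  obtain ⟨F, h0, hF⟩ := exists_chain f
  have hE : eichler (w + 1) ⇑f = F (w + 1) := by rw [← h0, eichler_eq hF]
  let Φ : ModularForm (Gamma0 N) (-(w : ℤ)) :=
    { toFun := eichler (w + 1) ⇑f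
      slash_action_eq' := by
        rintro _ ⟨γ, hγ, rfl⟩
        rw [← act_eq_slash_of_det_one w _ (det_mapGL γ)]
        exact hinv γ hγ
      holo' := by
        show MDiff (eichler (w + 1) ⇑f)
        rw [hE]
        exact (hF w).1.mdiff
      bdd_at_cusps' := by
        intro c hc
        rw [Subgroup.IsArithmetic.isCusp_iff_isCusp_SL2Z] at hc
        rw [OnePoint.isBoundedAt_iff_forall_SL2Z hc]
        intro γ _
        exact eichler_bounded f hinv γ }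
  have hΦ : Φ = 0 := by
    apply modularForm_eq_zero_of_nonpos (by simp)
    show Tendsto (eichler (w + 1) ⇑f) atImInfty (𝓝 0)
    rw [hE]
    exact (hF w).2
  have h1 : F (w + 1) = 0 := by
    rw [← hE]
    exact congrArg (fun Ψ : ModularForm (Gamma0 N) (-(w : ℤ)) => (⇑Ψ : ℍ → ℂ)) hΦ
  have h2 := hF.eq_zero_of_eq_zero h1
  rw [h0] at h2
  exact DFunLike.coe_injective h2

end Fermat.Agent.S22P
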