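import Fermat.Agent.S22P.Bol
import Fermat.Prelude.Thm_Subgroup_IsArithmetic_exists_nat_mem_strictPeriods_conj

set_option autoImplicit false

open UpperHalfPlane hiding I
open Filter Topology Complex Function Polynomial Matrix.SpecialLinearGroup
open scoped Manifold ModularForm MatrixGroups Pointwise

namespace Fermat.Agent.S22P

theorem det_mapGL (g : SL(2, ℤ)) : (mapGL ℝ g).det.val = 1 := by
  simp

theorem isIntMat_mapGL (g : SL(2, ℤ)) : IsIntMat (mapGL ℝ g) := fun i j => ⟨g i j, by simp⟩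

theorem act_mul (n : ℕ) (γ γ' : GL (Fin 2) ℝ) (hγ' : 0 < γ'.det.val) (ψ : ℍ → ℂ) :
    act n (γ * γ') ψ = act n γ' (act n γ ψ) := by
  funext y
  have hσ : UpperHalfPlane.σ γ' = .refl ℝ ℂ := by
    rw [UpperHalfPlane.σ, if_pos hγ']
  simp only [act_apply, denom_cocycle_σ, hσ, ContinuousAlgEquiv.refl_apply, mul_pow, mul_smul]
  ring

theorem act_one (n : ℕ) (ψ : ℍ → ℂ) : act n 1 ψ = ψ := by
  funext y
  simp

theorem act_eq_slash_of_det_one (n : ℕ) (γ : GL (Fin 2) ℝ) (hγ : γ.det.val = 1) (ψ : ℍ → ℂ) :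
    act n γ ψ = ψ ∣[-(n : ℤ)] γ := by
  rw [act_eq_slash n γ (by rw [hγ]; exact one_pos), hγ]
  simp

/-- Periodicity of a slash-translate of an invariant function. -/
theorem isPer_slash {φ : ℍ → ℂ} {κ : ℤ} {𝒢 : Subgroup (GL (Fin 2) ℝ)}
    (hφ : ∀ γ ∈ 𝒢, φ ∣[κ] γ = φ) (g : GL (Fin 2) ℝ) {h : ℝ}
    (hh : h ∈ (ConjAct.toConjAct g⁻¹ • 𝒢).strictPeriods) : IsPer h (φ ∣[κ] g) := by
  let φ' : SlashInvariantForm 𝒢 κ := ⟨φ, hφ⟩
  intro τ
  exact SlashInvariantForm.vAdd_apply_of_mem_strictPeriods (SlashInvariantForm.translate φ' g) τ hh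

theorem IsChain.isPer {h : ℝ} {G : ℕ → ℍ → ℂ} (hG : IsChain G) (h0 : IsPer h (G 0)) :
    ∀ s, IsPer h (G s) := by
  intro s
  induction s with
  | zero => exact h0
  | succ s ih => exact (hG s).isPer ih

/-- A periodic polynomial function is constant. -/
theorem const_of_mem_polyC_of_isPer {n : ℕ} {Q : ℍ → ℂ} (hQ : Q ∈ polyC n) {h : ℝ} (hh : 0 < h)
    (hper : IsPer h Q) : ∃ c : ℂ, Q = fun _ => c := by
  obtain ⟨P, -, hP⟩ := mem_polyC_iff.mp hQ
  have h1 : ∀ j : ℕ, Q (((j : ℝ) * h) +ᵥ UpperHalfPlane.I) = Q UpperHalfPlane.I := by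
    intro j
    induction j with
    | zero => simp
    | succ j ih =>
      rw [← ih, ← hper (((j : ℝ) * h) +ᵥ UpperHalfPlane.I)]
      congr 1
      ext
      simp
      ring
  have h2 : P - C (Q UpperHalfPlane.I) = 0 := by
    apply Polynomial.eq_zero_of_infinite_isRoot
    have hinj : Function.Injective (fun j : ℕ => ((((j : ℝ) * h) +ᵥ UpperHalfPlane.I : ℍ) : ℂ)) := by
      intro i j hij
      simp only [coe_vadd, add_left_inj] at hij
      have : ((i : ℝ) * h) = (j : ℝ) * h := by exact_mod_cast hij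
      have := mul_right_cancel₀ hh.ne' this
      exact_mod_cast this
    refine (Set.infinite_range_of_injective hinj).mono ?_
    rintro _ ⟨j, rfl⟩
    simp only [Set.mem_ofPred_eq, IsRoot.def, eval_sub, eval_C]
    rw [← hP, h1, sub_self]
  refine ⟨Q UpperHalfPlane.I, funext fun y => ?_⟩
  rw [hP, sub_eq_zero.mp h2, eval_C]

/-- A modular form of nonpositive weight tending to `0` at `i∞` vanishes. -/
theorem modularForm_eq_zero_of_nonpos {𝒢 : Subgroup (GL (Fin 2) ℝ)} [𝒢.IsArithmetic] {κ : ℤ}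
    (hκ : κ ≤ 0) (F : ModularForm 𝒢 κ) (hF : Tendsto F atImInfty (𝓝 0)) : F = 0 := by
  rcases hκ.lt_or_eq with h | h
  · exact ModularForm.isZero_of_neg_weight h F
  · subst h
    obtain ⟨c, hc⟩ := ModularForm.eq_const_of_weight_zero F
    rw [hc] at hF
    have : c = 0 := tendsto_nhds_unique tendsto_const_nhds hF
    subst this
    ext τ
    rw [hc]
    rfl

end Fermat.Agent.S22P
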