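import Fermat.Agent.S22P.Cocycle
import Fermat.Agent.S22P.Algebra

set_option autoImplicit false

open UpperHalfPlane hiding I
open Filter Topology Complex Function Polynomial Matrix.SpecialLinearGroup CongruenceSubgroup
open scoped Manifold ModularForm MatrixGroups Pointwise

namespace Fermat.Agent.S22P

variable {N : ℕ} [NeZero N] {w : ℕ}

theorem det_mapGL_pos (g : SL(2, ℤ)) : 0 < (mapGL ℝ g).det.val := by
  rw [det_mapGL]; exact one_pos

/-- The Eichler integral as a linear map. -/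
noncomputable def evE (N : ℕ) [NeZero N] (w : ℕ) :
    CuspForm (Gamma0 N) ((w : ℤ) + 2) →ₗ[ℂ] (ℍ → ℂ) where
  toFun f := eichler (w + 1) ⇑f
  map_add' f f' := by
    obtain ⟨F, h0, hF⟩ := exists_chain f
    obtain ⟨F', h0', hF'⟩ := exists_chain f'
    have h := eichler_eq (hF.add hF') (w + 1)
    simp only [h0, h0'] at h
    rw [CuspForm.coe_add, h, ← h0, ← h0', eichler_eq hF, eichler_eq hF']
  map_smul' c f := by
    obtain ⟨F, h0, hF⟩ := exists_chain f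
    have h := eichler_eq (hF.const_smul c) (w + 1)
    simp only [h0] at h
    rw [CuspForm.IsGLPos.coe_smul, h, ← h0, eichler_eq hF]
    rfl

@[simp] theorem evE_apply (f : CuspForm (Gamma0 N) ((w : ℤ) + 2)) :
    evE N w f = eichler (w + 1) ⇑f := rfl

/-- The vector of cocycle values at a finite set of elements. -/
noncomputable def cocycVec (w : ℕ) (S : Finset (Gamma0 N)) : (ℍ → ℂ) →ₗ[ℂ] (S → ℍ → ℂ) :=
  LinearMap.pi fun s => cocyc w (mapGL ℝ (s.1 : SL(2, ℤ)))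

/-- The period vector. -/
noncomputable def ev (w : ℕ) (S : Finset (Gamma0 N)) :
    CuspForm (Gamma0 N) ((w : ℤ) + 2) →ₗ[ℂ] (S → ℍ → ℂ) :=
  (cocycVec w S).comp (evE N w)

/-- The lattice of integral period vectors. -/
noncomputable def Lam (w : ℕ) (S : Finset (Gamma0 N)) : Submodule ℤ (S → ℍ → ℂ) :=
  Submodule.pi Set.univ fun _ => polyZ w

theorem Lam_fg (w : ℕ) (S : Finset (Gamma0 N)) : (Lam w S).FG :=
  Submodule.fg_pi fun _ => polyZ_fg w

theorem mem_Lam {S : Finset (Gamma0 N)} {v : S → ℍ → ℂ} : v ∈ Lam w S ↔ ∀ s, v s ∈ polyZ w := by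
  simp [Lam, Submodule.mem_pi]

theorem range_ev_le (S : Finset (Gamma0 N)) :
    LinearMap.range (ev w S) ≤ Submodule.span ℂ (Lam w S : Set (S → ℍ → ℂ)) := by
  classical
  rintro _ ⟨f, rfl⟩
  have hsingle : ∀ (s : S) (ψ : ℍ → ℂ), ψ ∈ Submodule.span ℂ (polyZ w : Set (ℍ → ℂ)) →
      Pi.single s ψ ∈ Submodule.span ℂ (Lam w S : Set (S → ℍ → ℂ)) := by
    intro s ψ hψ
    induction hψ using Submodule.span_induction with
    | mem ψ hψ =>
      apply Submodule.subset_span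
      rw [SetLike.mem_coe, mem_Lam]
      intro t
      by_cases h : t = s
      · subst h; simpa using hψ
      · simp [Pi.single_eq_of_ne h]
    | zero => simp
    | add ψ ψ' _ _ h h' => rw [Pi.single_add]; exact Submodule.add_mem _ h h'
    | smul c ψ _ h => rw [Pi.single_smul]; exact Submodule.smul_mem _ c h
  have hsum : ev w S f = ∑ s : S, Pi.single s (ev w S f s) := by
    funext t
    simp [Finset.sum_apply, Pi.single_apply]
  rw [hsum]
  refine Submodule.sum_mem _ fun s _ => hsingle s _ (polyC_le_span_polyZ w ?_)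
  exact cocyc_mem_polyC f s.1.2

theorem cocyc_mul (γ γ' : GL (Fin 2) ℝ) (hγ' : 0 < γ'.det.val) (φ : ℍ → ℂ) :
    cocyc w (γ * γ') φ = act w γ' (cocyc w γ φ) + cocyc w γ' φ := by
  simp only [cocyc_apply, act_mul w γ γ' hγ', map_sub]
  abel

theorem cocyc_one (φ : ℍ → ℂ) : cocyc w 1 φ = 0 := by
  simp [cocyc_apply, act_one]

theorem cocyc_inv (γ : GL (Fin 2) ℝ) (hγ : 0 < γ⁻¹.det.val) (φ : ℍ → ℂ) :
    cocyc w γ⁻¹ φ = - act w γ⁻¹ (cocyc w γ φ) := by
  have h := cocyc_mul (w := w) γ γ⁻¹ hγ φ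
  rw [mul_inv_cancel, cocyc_one] at h
  exact eq_neg_of_add_eq_zero_right h.symm

/-- Every cocycle value is an integral linear function of the values on generators. -/
theorem exists_eval {S : Finset (Gamma0 N)}
    (hS : Subgroup.closure (S : Set (Gamma0 N)) = ⊤) (γ : Gamma0 N) :
    ∃ e : (S → ℍ → ℂ) →ₗ[ℂ] (ℍ → ℂ), (∀ x ∈ Lam w S, e x ∈ polyZ w) ∧
      ∀ φ : ℍ → ℂ, e (cocycVec w S φ) = cocyc w (mapGL ℝ (γ : SL(2, ℤ))) φ := by
  have hγ : γ ∈ Subgroup.closure (S : Set (Gamma0 N)) := hS ▸ Subgroup.mem_top γ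
  induction hγ using Subgroup.closure_induction with
  | mem γ hγ =>
    refine ⟨LinearMap.proj (⟨γ, hγ⟩ : S), fun x hx => mem_Lam.mp hx _, fun φ => rfl⟩
  | one =>
    refine ⟨0, fun x _ => by simp, fun φ => ?_⟩
    simp [act_one]
  | mul γ γ' _ _ ih ih' =>
    obtain ⟨e, he1, he2⟩ := ih
    obtain ⟨e', he1', he2'⟩ := ih'
    refine ⟨(act w (mapGL ℝ (γ' : SL(2, ℤ)))).comp e + e', fun x hx => ?_, fun φ => ?_⟩
    · exact Submodule.add_mem _ (act_mem_polyZ (det_mapGL_pos _) (isIntMat_mapGL _) (he1 x hx))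
        (he1' x hx)
    · simp only [LinearMap.add_apply, LinearMap.comp_apply, he2, he2', Subgroup.coe_mul, map_mul]
      rw [cocyc_mul _ _ (det_mapGL_pos _)]
  | inv γ _ ih =>
    obtain ⟨e, he1, he2⟩ := ih
    refine ⟨-(act w (mapGL ℝ ((γ⁻¹ : Gamma0 N) : SL(2, ℤ)))).comp e, fun x hx => ?_, fun φ => ?_⟩
    · exact Submodule.neg_mem _ (act_mem_polyZ (det_mapGL_pos _) (isIntMat_mapGL _) (he1 x hx))
    · simp only [LinearMap.neg_apply, LinearMap.comp_apply, he2, Subgroup.coe_inv, map_inv]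
      rw [cocyc_inv]
      rw [← map_inv]
      exact det_mapGL_pos _

theorem ev_injective {S : Finset (Gamma0 N)}
    (hS : Subgroup.closure (S : Set (Gamma0 N)) = ⊤) : Function.Injective (ev w S) := by
  rw [← LinearMap.ker_eq_bot, LinearMap.ker_eq_bot']
  intro f hf
  apply eq_zero_of_invariant f
  intro g hg
  obtain ⟨e, -, he⟩ := exists_eval (w := w) hS ⟨g, hg⟩
  have h1 := he (eichler (w + 1) ⇑f)
  have h2 : cocycVec w S (eichler (w + 1) ⇑f) = 0 := hf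
  rw [h2, map_zero, cocyc_apply] at h1
  exact (sub_eq_zero.mp h1.symm)

/-- Abstract Hecke datum: a finite family of upper triangular integral matrices permuted by
right multiplication by `Γ₀(N)`. -/
structure HeckeDatum (N : ℕ) (ι : Type) [Fintype ι] (δ : ι → GL (Fin 2) ℝ) : Prop where
  det_pos : ∀ x, 0 < (δ x).det.val
  c_eq_zero : ∀ x, δ x 1 0 = 0
  isInt : ∀ x, IsIntMat (δ x)
  perm : ∀ g ∈ Gamma0 N, ∃ σ : Equiv.Perm ι, ∀ x, ∃ g' ∈ Gamma0 N,
    δ x * mapGL ℝ g = mapGL ℝ g' * δ (σ x)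

theorem eichler_hecke {ι : Type} [Fintype ι] {δ : ι → GL (Fin 2) ℝ} (hδ : HeckeDatum N ι δ)
    (f f' : CuspForm (Gamma0 N) ((w : ℤ) + 2))
    (hf' : ⇑f' = ∑ x, ⇑f ∣[(w : ℤ) + 2] δ x) :
    eichler (w + 1) ⇑f' = ∑ x, act w (δ x) (eichler (w + 1) ⇑f) := by
  obtain ⟨F, h0, hF⟩ := exists_chain f
  have hch := IsChain.sum Finset.univ (F := fun x s =>
    ((((δ x).det.val : ℝ) : ℂ) ^ s) • (F s ∣[((w : ℤ) + 2) - 2 * s] δ x))
    (fun x _ => hF.slash_of_c_eq_zero (δ x) (hδ.det_pos x) (hδ.c_eq_zero x) ((w : ℤ) + 2))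
  have h := eichler_eq hch (w + 1)
  have e0 : (∑ x, ((((δ x).det.val : ℝ) : ℂ) ^ 0) • (F 0 ∣[((w : ℤ) + 2) - 2 * (0 : ℕ)] δ x)) = ⇑f' := by
    rw [hf', h0]
    simp
  rw [e0] at h
  rw [h, ← h0, eichler_eq hF]
  refine Finset.sum_congr rfl fun x _ => ?_
  rw [act_eq_slash w (δ x) (hδ.det_pos x)]
  congr 2
  push_cast
  ring

theorem exists_intertwiner {S : Finset (Gamma0 N)}
    (hS : Subgroup.closure (S : Set (Gamma0 N)) = ⊤)
    {ι : Type} [Fintype ι] {δ : ι → GL (Fin 2) ℝ} (hδ : HeckeDatum N ι δ)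
    (T : Module.End ℂ (CuspForm (Gamma0 N) ((w : ℤ) + 2)))
    (hT : ∀ f, ⇑(T f) = ∑ x, ⇑f ∣[(w : ℤ) + 2] δ x) :
    ∃ φ : Module.End ℂ (S → ℍ → ℂ), (∀ x ∈ Lam w S, φ x ∈ Lam w S) ∧
      ∀ f, φ (ev w S f) = ev w S (T f) := by
  classical
  -- choices
  have h1 : ∀ s : S, ∃ σ : Equiv.Perm ι, ∀ x, ∃ g' ∈ Gamma0 N,
    δ x * mapGL ℝ (s.1 : SL(2, ℤ)) = mapGL ℝ g' * δ (σ x) := fun s => hδ.perm _ s.1.2
  choose σ hσ using h1
  choose g' hg' hmul using hσ
  have h2 : ∀ (s : S) (x : ι), ∃ e : (S → ℍ → ℂ) →ₗ[ℂ] (ℍ → ℂ), (∀ v ∈ Lam w S, e v ∈ polyZ w) ∧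
      ∀ φ : ℍ → ℂ, e (cocycVec w S φ) = cocyc w (mapGL ℝ (g' s x)) φ :=
    fun s x => exists_eval (w := w) hS ⟨g' s x, hg' s x⟩
  choose e he1 he2 using h2
  refine ⟨LinearMap.pi fun s => ∑ x, (act w (δ (σ s x))).comp (e s x), fun v hv => ?_, fun f => ?_⟩
  · rw [mem_Lam]
    intro s
    simp only [LinearMap.pi_apply, LinearMap.sum_apply, LinearMap.comp_apply]
    exact Submodule.sum_mem _ fun x _ => act_mem_polyZ (hδ.det_pos _) (hδ.isInt _) (he1 s x v hv)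
  · funext s
    have hE := eichler_hecke hδ f (T f) (hT f)
    simp only [LinearMap.pi_apply, LinearMap.sum_apply, LinearMap.comp_apply]
    show ∑ x, act w (δ (σ s x)) (e s x (cocycVec w S (eichler (w + 1) ⇑f))) =
      cocyc w (mapGL ℝ (s.1 : SL(2, ℤ))) (eichler (w + 1) ⇑(T f))
    rw [hE, cocyc_apply, map_sum]
    have e1 : ∑ x, act w (δ x) (eichler (w + 1) ⇑f) =
        ∑ x, act w (δ (σ s x)) (eichler (w + 1) ⇑f) :=
      (Equiv.sum_comp (σ s) fun x => act w (δ x) (eichler (w + 1) ⇑f)).symm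
    rw [e1, ← Finset.sum_sub_distrib]
    refine Finset.sum_congr rfl fun x _ => ?_
    rw [he2, cocyc_apply, map_sub, ← act_mul w _ _ (det_mapGL_pos _), hmul,
      act_mul w _ _ (hδ.det_pos _)]

end Fermat.Agent.S22P
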