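import Mathlib

set_option autoImplicit false

open UpperHalfPlane hiding I
open Filter Topology Complex Function
open scoped Manifold

namespace Fermat.Agent.S22P

/-- `G` is a holomorphic primitive of `g` on `ℍ`. -/
def IsDer (G g : ℍ → ℂ) : Prop :=
  ∀ τ : ℍ, HasDerivAt (G ∘ ofComplex) (g τ) ↑τ

/-- `G` is a primitive of `g` on `ℍ` tending to `0` at `i∞`. -/
def IsPrim (G g : ℍ → ℂ) : Prop :=
  IsDer G g ∧ Tendsto G atImInfty (𝓝 0)

theorem IsDer.add {G g G' g' : ℍ → ℂ} (h : IsDer G g) (h' : IsDer G' g') :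
    IsDer (G + G') (g + g') := fun τ => (h τ).add (h' τ)

theorem IsDer.sub {G g G' g' : ℍ → ℂ} (h : IsDer G g) (h' : IsDer G' g') :
    IsDer (G - G') (g - g') := fun τ => (h τ).sub (h' τ)

theorem IsDer.const_smul {G g : ℍ → ℂ} (c : ℂ) (h : IsDer G g) :
    IsDer (c • G) (c • g) := fun τ => (h τ).const_smul c

theorem IsDer.mdiff {G g : ℍ → ℂ} (h : IsDer G g) : MDiff G := by
  rw [UpperHalfPlane.mdifferentiable_iff]
  intro z hz
  exact ((h ⟨z, hz⟩).differentiableAt).differentiableWithinAt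

/-- A function on `ℍ` with zero derivative is constant. -/
theorem IsDer.const_of_zero {G : ℍ → ℂ} (h : IsDer G 0) (τ τ' : ℍ) : G τ = G τ' := by
  have hopen : IsOpen {z : ℂ | 0 < z.im} := isOpen_upperHalfPlaneSet
  have hconn : IsPreconnected {z : ℂ | 0 < z.im} :=
    (convex_halfSpace_im_gt 0).isPreconnected
  have hd : DifferentiableOn ℂ (G ∘ ofComplex) {z : ℂ | 0 < z.im} := fun z hz =>
    ((h ⟨z, hz⟩).differentiableAt).differentiableWithinAt
  have hz : Set.EqOn (deriv (G ∘ ofComplex)) 0 {z : ℂ | 0 < z.im} := fun z hz =>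
    (h ⟨z, hz⟩).deriv
  have := hopen.is_const_of_deriv_eq_zero hconn hd hz τ.im_pos τ'.im_pos
  simpa using this

theorem IsDer.eq_zero_of_zero {g : ℍ → ℂ} (h : IsDer 0 g) : g = 0 := by
  funext τ
  have h1 : HasDerivAt ((0 : ℍ → ℂ) ∘ ofComplex) 0 (τ : ℂ) := by
    have : ((0 : ℍ → ℂ) ∘ ofComplex) = fun _ => (0 : ℂ) := rfl
    rw [this]; exact hasDerivAt_const _ _
  exact (h τ).unique h1

theorem IsPrim.add {G g G' g' : ℍ → ℂ} (h : IsPrim G g) (h' : IsPrim G' g') :
    IsPrim (G + G') (g + g') :=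
  ⟨h.1.add h'.1, by simpa using! h.2.add h'.2⟩

theorem IsPrim.const_smul {G g : ℍ → ℂ} (c : ℂ) (h : IsPrim G g) :
    IsPrim (c • G) (c • g) :=
  ⟨h.1.const_smul c, by simpa using! h.2.const_smul c⟩

theorem isPrim_zero : IsPrim 0 0 :=
  ⟨fun τ => by
    have : ((0 : ℍ → ℂ) ∘ ofComplex) = fun _ => (0 : ℂ) := rfl
    rw [this]; exact hasDerivAt_const _ _, tendsto_const_nhds⟩

theorem IsPrim.sum {ι : Type*} (s : Finset ι) {G g : ι → ℍ → ℂ}
    (h : ∀ i ∈ s, IsPrim (G i) (g i)) : IsPrim (∑ i ∈ s, G i) (∑ i ∈ s, g i) := by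
  classical
  induction s using Finset.induction_on with
  | empty => simpa using isPrim_zero
  | insert a s ha ih =>
    rw [Finset.sum_insert ha, Finset.sum_insert ha]
    exact (h a (Finset.mem_insert_self a s)).add
      (ih fun i hi => h i (Finset.mem_insert_of_mem hi))

theorem IsPrim.unique {G G' g : ℍ → ℂ} (h : IsPrim G g) (h' : IsPrim G' g) : G = G' := by
  have hd : IsDer (G - G') 0 := by simpa using h.1.sub h'.1
  have ht : Tendsto (G - G') atImInfty (𝓝 0) := by simpa using! h.2.sub h'.2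
  funext τ
  have hc : (G - G') = fun _ => (G - G') τ := funext fun τ' => hd.const_of_zero τ' τ
  rw [hc] at ht
  have := tendsto_nhds_unique ht tendsto_const_nhds
  simpa [sub_eq_zero] using this.symm

/-- Translation-periodicity of a function on `ℍ`. -/
def IsPer (h : ℝ) (g : ℍ → ℂ) : Prop := ∀ τ : ℍ, g (h +ᵥ τ) = g τ

theorem IsPer.periodic_comp_ofComplex {h : ℝ} {g : ℍ → ℂ} (hg : IsPer h g) :
    Periodic (g ∘ ofComplex) h := by
  intro z
  by_cases hz : 0 < z.im
  · have hz' : 0 < (z + h).im := by simpa using hz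
    simp only [comp_apply, ofComplex_apply_of_im_pos hz, ofComplex_apply_of_im_pos hz']
    rw [← hg ⟨z, hz⟩]
    congr 1
    ext
    simp [add_comm]
  · have hz' : (z + h).im ≤ 0 := by simpa using not_lt.mp hz
    simp only [comp_apply]
    rw [ofComplex_apply_eq_of_im_nonpos hz' (not_lt.mp hz)]

/-- Existence of a primitive vanishing at `i∞`. -/
theorem exists_isPrim {h : ℝ} (hh : 0 < h) {g : ℍ → ℂ} (hol : MDiff g) (hper : IsPer h g)
    (hzero : Tendsto g atImInfty (𝓝 0)) : ∃ G, IsPrim G g := by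
  have hP := hper.periodic_comp_ofComplex
  have hdiff : ∀ z : ℂ, 0 < z.im → DifferentiableAt ℂ (g ∘ ofComplex) z := by
    intro z hz
    exact (UpperHalfPlane.mdifferentiable_iff.mp hol).differentiableAt
      (isOpen_upperHalfPlaneSet.mem_nhds hz)
  have hzero' : ZeroAtFilter (comap Complex.im atTop) (g ∘ ofComplex) :=
    hzero.comp tendsto_comap_im_ofComplex
  set φ := Periodic.cuspFunction h (g ∘ ofComplex) with hφ
  have hφ0 : φ 0 = 0 := Periodic.cuspFunction_zero_of_zero_at_inf hh hzero'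
  have hφd : DifferentiableOn ℂ φ (Metric.ball 0 1) := by
    intro q hq
    apply DifferentiableAt.differentiableWithinAt
    by_cases hq0 : q = 0
    · subst hq0
      refine Periodic.differentiableAt_cuspFunction_zero hh hP ?_ hzero'.boundedAtFilter
      rw [eventually_comap]
      filter_upwards [eventually_gt_atTop 0] with y hy z hz
      exact hdiff z (hz ▸ hy)
    · have him : 0 < (Periodic.invQParam h q).im := by
        rw [Periodic.im_invQParam]
        have h1 : ‖q‖ < 1 := by simpa using hq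
        have h2 : Real.log ‖q‖ < 0 := Real.log_neg (norm_pos_iff.mpr hq0) h1
        have h3 : -h / (2 * Real.pi) < 0 := by
          apply div_neg_of_neg_of_pos <;> [linarith; positivity]
        exact mul_pos_of_neg_of_neg h3 h2
      have := Periodic.differentiableAt_cuspFunction hh.ne' hP (hdiff _ him)
      rwa [Periodic.qParam_right_inv hh.ne' hq0] at this
  have hφ1 : DifferentiableOn ℂ (dslope φ 0) (Metric.ball 0 1) :=
    (Complex.differentiableOn_dslope (Metric.ball_mem_nhds 0 one_pos)).mpr hφd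
  obtain ⟨Φ, hΦ0, hΦ⟩ := (hφ1.isExactOn_ball).with_val_at 0 0
  have hcont : ContinuousAt Φ 0 := (hΦ 0 (Metric.mem_ball_self one_pos)).continuousAt
  refine ⟨fun τ => (h / (2 * Real.pi * I)) * Φ (Periodic.qParam h τ), fun τ => ?_, ?_⟩
  · have hq : Periodic.qParam h (τ : ℂ) ∈ Metric.ball (0 : ℂ) 1 := by
      simpa using Periodic.norm_qParam_lt_one hh τ.im_pos
    have h1 : HasDerivAt (Periodic.qParam h) (2 * Real.pi * I / h * Periodic.qParam h τ) (τ : ℂ) := by
      unfold Periodic.qParam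
      have : HasDerivAt (fun z : ℂ => 2 * Real.pi * I * z / h) (2 * Real.pi * I / h) (τ : ℂ) := by
        simpa using ((hasDerivAt_id (τ : ℂ)).const_mul (2 * Real.pi * I)).div_const (h : ℂ)
      simpa [mul_comm] using this.cexp
    have h2 := ((hΦ _ hq).comp (τ : ℂ) h1).const_mul (h / (2 * Real.pi * I))
    have h3 : (h / (2 * Real.pi * I)) *
        (dslope φ 0 (Periodic.qParam h τ) * (2 * Real.pi * I / h * Periodic.qParam h τ)) = g τ := by
      have e1 : Periodic.qParam h (τ : ℂ) * dslope φ 0 (Periodic.qParam h τ) = g τ := by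
        have := sub_smul_dslope φ 0 (Periodic.qParam h (τ : ℂ))
        rw [hφ0, sub_zero, sub_zero, smul_eq_mul] at this
        rw [this, hφ, Periodic.eq_cuspFunction hh.ne' hP]
        simp
      have hh' : (h : ℂ) ≠ 0 := by exact_mod_cast hh.ne'
      have hpi : (2 * Real.pi * I : ℂ) ≠ 0 := by
        simp [Real.pi_ne_zero]
      rw [← e1]
      field_simp
    rw [h3] at h2
    refine h2.congr_of_eventuallyEq ?_
    filter_upwards [isOpen_upperHalfPlaneSet.mem_nhds τ.im_pos] with z hz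
    simp [ofComplex_apply_of_im_pos hz]
  · have h1 : Tendsto (fun τ : ℍ => Φ (Periodic.qParam h τ)) atImInfty (𝓝 (Φ 0)) :=
      hcont.tendsto.comp (qParam_tendsto_atImInfty hh)
    rw [hΦ0] at h1
    simpa using h1.const_mul (h / (2 * Real.pi * I))

end Fermat.Agent.S22P
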